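import Mathlib.Algebra.BigOperators.Ring.Finset
import Mathlib.Algebra.Order.Field.GeomSum
import Mathlib.Analysis.Normed.Field.Ultra
import Mathlib.Analysis.SpecialFunctions.Pow.Real
import Mathlib.Data.Nat.Choose.Factorization
import Mathlib.Data.Nat.Choose.Lucas
import Mathlib.FieldTheory.IsAlgClosed.Basic
import Mathlib.Algebra.Polynomial.Taylor
import Mathlib.GroupTheory.GroupAction.Basic

/-!
# Ax's lemma

`G` acts by isometries on an algebraically closed nonarchimedean normed field of characteristic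
zero. An element with finite orbit of diameter `r` is within a constant times `r` of a fixed
element: the polynomial of the orbit has a Hasse derivative with a root close to the element.
-/

set_option autoImplicit false

noncomputable section

open Polynomial

namespace Fermat.Agent.AxSenTate

theorem not_dvd_choose_mul_pow {p : ℕ} (hp : p.Prime) {d : ℕ} (hd : ¬p ∣ d) (k : ℕ) :
    ¬p ∣ Nat.choose (p ^ k * d) (p ^ k) := by
  have : Fact p.Prime := ⟨hp⟩
  induction k with
  | zero => simpa using hd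
  | succ k ih =>
    have h : Nat.choose (p ^ (k + 1) * d) (p ^ (k + 1)) ≡
        Nat.choose ((p ^ (k + 1) * d) % p) (p ^ (k + 1) % p) *
          Nat.choose ((p ^ (k + 1) * d) / p) (p ^ (k + 1) / p) [MOD p] :=
      Choose.choose_modEq_choose_mod_mul_choose_div_nat
    rw [pow_succ', mul_assoc, Nat.mul_mod_right, Nat.mul_mod_right, Nat.choose_self, one_mul,
      Nat.mul_div_cancel_left _ hp.pos, Nat.mul_div_cancel_left _ hp.pos, ← mul_assoc,
      ← pow_succ'] at h
    exact fun hdvd => ih ((Nat.ModEq.dvd_iff h dvd_rfl).1 hdvd)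

theorem choose_prime_pow_succ {p : ℕ} (hp : p.Prime) (k : ℕ) :
    ∃ u, Nat.choose (p ^ (k + 1)) (p ^ k) = p * u ∧ ¬p ∣ u := by
  set c := Nat.choose (p ^ (k + 1)) (p ^ k) with hc
  have hle : p ^ k ≤ p ^ (k + 1) := Nat.pow_le_pow_right hp.pos k.le_succ
  have h : c.factorization p = 1 := by
    rw [hc, Nat.factorization_choose_prime_pow hp hle (pow_ne_zero _ hp.ne_zero),
      Nat.Prime.factorization_pow hp, Finsupp.single_eq_same]
    omega
  refine ⟨c / p, (Nat.mul_div_cancel' ?_).symm, ?_⟩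
  · exact Nat.dvd_of_factorization_pos (by omega)
  · have := Nat.not_dvd_ordCompl (n := c) hp (Nat.choose_pos hle).ne'
    rwa [h, pow_one] at this

/-- The exponent of the constant in Ax's lemma for orbits of size `n`. -/
def axExponent (p n : ℕ) : ℝ :=
  ∑ j ∈ Finset.range (Nat.log p n), 1 / ((p : ℝ) ^ j * ((p : ℝ) - 1))

theorem axExponent_le {p : ℕ} (hp : p.Prime) (n : ℕ) :
    axExponent p n ≤ (p : ℝ) / ((p : ℝ) - 1) ^ 2 := by
  have h2 : (2 : ℝ) ≤ p := by exact_mod_cast hp.two_le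
  have e : axExponent p n = (∑ j ∈ Finset.range (Nat.log p n), (p : ℝ)⁻¹ ^ j) / ((p : ℝ) - 1) := by
    rw [div_eq_mul_inv, Finset.sum_mul]
    refine Finset.sum_congr rfl fun j _ => ?_
    rw [inv_pow, one_div, mul_inv]
  rw [e, show (p : ℝ) / ((p : ℝ) - 1) ^ 2 = (1 - (p : ℝ)⁻¹)⁻¹ / ((p : ℝ) - 1) by field_simp]
  refine div_le_div_of_nonneg_right ?_ (by linarith)
  rw [geom_sum_eq (inv_lt_one_of_one_lt₀ (by linarith)).ne]
  have hq : (p : ℝ)⁻¹ < 1 := inv_lt_one_of_one_lt₀ (by linarith)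
  rw [← neg_div_neg_eq, neg_sub, neg_sub]
  exact (div_le_div_of_nonneg_right (sub_le_self _ (by positivity)) (by linarith)).trans_eq
    (one_div _)

theorem axExponent_nonneg {p : ℕ} (hp : p.Prime) (n : ℕ) : 0 ≤ axExponent p n :=
  Finset.sum_nonneg fun j _ => by
    have : (1 : ℝ) ≤ p := by exact_mod_cast hp.one_lt.le
    positivity

theorem axExponent_mono {p : ℕ} (hp : p.Prime) {m n : ℕ} (h : m ≤ n) :
    axExponent p m ≤ axExponent p n :=
  Finset.sum_le_sum_of_subset_of_nonneg (Finset.range_mono (Nat.log_mono_right h)) fun j _ _ => by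
    have : (1 : ℝ) ≤ p := by exact_mod_cast hp.one_lt.le
    positivity

theorem min_pow_le_prod {t : ℝ} (ht : 0 ≤ t) :
    ∀ m : Multiset ℝ, (∀ x ∈ m, t ≤ x) → t ^ Multiset.card m ≤ m.prod := by
  intro m
  induction m using Multiset.induction with
  | empty => simp
  | cons a m ih =>
    intro h
    rw [Multiset.card_cons, Multiset.prod_cons, pow_succ']
    exact mul_le_mul (h a (Multiset.mem_cons_self _ _))
      (ih fun x hx => h x (Multiset.mem_cons_of_mem hx)) (pow_nonneg ht _)
      (ht.trans (h a (Multiset.mem_cons_self _ _)))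

section Norm

variable {L : Type*} [NormedField L] [IsUltrametricDist L]

theorem norm_sub_le_max (a b : L) : ‖a - b‖ ≤ max ‖a‖ ‖b‖ := by
  rw [sub_eq_add_neg, ← norm_neg b]
  exact IsUltrametricDist.norm_add_le_max a (-b)

theorem norm_natCast_eq_one_of_not_dvd {p : ℕ} (hp : p.Prime) (hpL : ‖(p : L)‖ < 1) {m : ℕ}
    (hm : ¬p ∣ m) : ‖(m : L)‖ = 1 := by
  refine le_antisymm (IsUltrametricDist.norm_natCast_le_one L m) (not_lt.1 fun hlt => ?_)
  have hcop : Nat.gcd p m = 1 := (Nat.Prime.coprime_iff_not_dvd hp).2 hm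
  have h := congrArg (fun z : ℤ => (z : L)) (Nat.gcd_eq_gcd_ab p m)
  rw [hcop] at h
  push_cast at h
  have h1 : ‖(1 : L)‖ < 1 := by
    rw [h]
    refine (IsUltrametricDist.norm_add_le_max _ _).trans_lt (max_lt ?_ ?_) <;> rw [norm_mul]
    · exact (mul_le_of_le_one_right (norm_nonneg _)
        (IsUltrametricDist.norm_intCast_le_one L _)).trans_lt hpL
    · exact (mul_le_of_le_one_right (norm_nonneg _)
        (IsUltrametricDist.norm_intCast_le_one L _)).trans_lt hlt
  rw [norm_one] at h1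
  exact lt_irrefl _ h1

/-- The coefficients of a polynomial with roots of size at most `r`. -/
theorem norm_coeff_prod_mul_pow_le {ι : Type*} (s : Finset ι) (f : ι → L) {r : ℝ} (hr : 0 ≤ r)
    (h : ∀ i ∈ s, ‖f i‖ ≤ r) (j : ℕ) :
    ‖(∏ i ∈ s, (X - C (f i))).coeff j‖ * r ^ j ≤ r ^ s.card := by
  classical
  induction s using Finset.induction generalizing j with
  | empty =>
    rw [Finset.prod_empty, coeff_one]
    split_ifs with hj <;> simp [hj]
  | insert a t ha ih =>
    have ih' := fun j => ih (fun i hi => h i (Finset.mem_insert_of_mem hi)) j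
    rw [Finset.prod_insert ha, Finset.card_insert_of_notMem ha, sub_mul, coeff_sub, coeff_C_mul]
    set P := ∏ i ∈ t, (X - C (f i)) with hP
    have h2 : ‖f a * P.coeff j‖ * r ^ j ≤ r ^ (t.card + 1) := by
      rw [norm_mul, mul_assoc, pow_succ']
      exact mul_le_mul (h a (Finset.mem_insert_self _ _)) (ih' j) (by positivity) hr
    have h1 : ‖(X * P).coeff j‖ * r ^ j ≤ r ^ (t.card + 1) := by
      rcases j with _ | j
      · simp [pow_nonneg hr]
      · rw [coeff_X_mul, pow_succ', pow_succ' r t.card, mul_left_comm]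
        exact mul_le_mul_of_nonneg_left (ih' j) hr
    refine le_trans (mul_le_mul_of_nonneg_right (norm_sub_le_max _ _) (pow_nonneg hr _)) ?_
    rw [max_mul_of_nonneg _ _ (pow_nonneg hr _)]
    exact max_le h1 h2

variable [IsAlgClosed L] [CharZero L]

/-- A Hasse derivative has a root near the center of a cluster of roots. -/
theorem exists_root_hasseDeriv_near (s : Finset L) (α : L) {r : ℝ} (hr : 0 < r)
    (hs : ∀ x ∈ s, ‖x - α‖ ≤ r) {q : ℕ} (hq : q < s.card) :
    ∃ β : L, (hasseDeriv q (∏ x ∈ s, (X - C x))).IsRoot β ∧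
      ‖β - α‖ ^ (s.card - q) * ‖(Nat.choose s.card q : L)‖ ≤ r ^ (s.card - q) := by
  classical
  set P := ∏ x ∈ s, (X - C x) with hP
  set Q := hasseDeriv q P with hQ
  have hPd : P.natDegree = s.card := by
    rw [hP, natDegree_prod_of_monic _ _ fun x _ => monic_X_sub_C x]
    simp
  have hPm : P.Monic := monic_prod_of_monic _ _ fun x _ => monic_X_sub_C x
  have hcoeff : Q.coeff (s.card - q) = (Nat.choose s.card q : L) := by
    rw [hQ, hasseDeriv_coeff, Nat.sub_add_cancel hq.le, ← hPd, hPm.coeff_natDegree, mul_one]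
  have hQd : Q.natDegree = s.card - q := by
    refine le_antisymm ((natDegree_hasseDeriv_le P q).trans_eq (by rw [hPd]))
      (le_natDegree_of_ne_zero ?_)
    rw [hcoeff]
    exact_mod_cast (Nat.choose_pos hq.le).ne'
  have hlc : Q.leadingCoeff = (Nat.choose s.card q : L) := by rw [leadingCoeff, hQd, hcoeff]
  have hb : ‖Q.eval α‖ * r ^ q ≤ r ^ s.card := by
    rw [hQ, ← taylor_coeff]
    have e : taylor α P = ∏ x ∈ s, (X - C (x - α)) := by
      rw [hP, taylor_apply, prod_comp]
      refine Finset.prod_congr rfl fun x _ => ?_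
      rw [sub_comp, X_comp, C_comp, C_sub]
      ring
    rw [e]
    exact norm_coeff_prod_mul_pow_le s _ hr.le hs q
  have hcard : Multiset.card Q.roots = s.card - q := by
    rw [← hQd]; exact IsAlgClosed.card_roots_eq_natDegree
  have hne : Q.roots.toFinset.Nonempty := by
    rw [Multiset.toFinset_nonempty, ← Multiset.card_pos]
    omega
  obtain ⟨β, hβ, hmin⟩ := Finset.exists_min_image _ (fun y : L => ‖y - α‖) hne
  rw [Multiset.mem_toFinset] at hβ
  refine ⟨β, isRoot_of_mem_roots hβ, ?_⟩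
  have heval : Q.eval α = Q.leadingCoeff * (Q.roots.map fun y => α - y).prod := by
    conv_lhs => rw [← C_leadingCoeff_mul_prod_multiset_X_sub_C
      (IsAlgClosed.card_roots_eq_natDegree (p := Q))]
    simp [eval_multiset_prod, Multiset.map_map]
  have hprod : ‖β - α‖ ^ (s.card - q) ≤ ‖(Q.roots.map fun y => α - y).prod‖ := by
    rw [← hcard, show Multiset.card Q.roots =
      Multiset.card (Q.roots.map fun y => ‖α - y‖) by rw [Multiset.card_map]]
    refine (min_pow_le_prod (norm_nonneg _) _ fun x hx => ?_).trans_eq ?_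
    · obtain ⟨y, hy, rfl⟩ := Multiset.mem_map.1 hx
      rw [norm_sub_rev α y]
      exact hmin y (Multiset.mem_toFinset.2 hy)
    · exact (by
        induction Q.roots using Multiset.induction with
        | empty => simp
        | cons a m ih => rw [Multiset.map_cons, Multiset.prod_cons, ih, Multiset.map_cons,
            Multiset.prod_cons, norm_mul])
  refine le_of_mul_le_mul_right ?_ (pow_pos hr q)
  rw [← pow_add, Nat.sub_add_cancel hq.le]
  refine le_trans (mul_le_mul_of_nonneg_right ?_ (pow_nonneg hr.le q)) hb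
  rw [heval, norm_mul, hlc, mul_comm]
  exact mul_le_mul_of_nonneg_left hprod (norm_nonneg _)

variable {G : Type*} [Group G] [MulSemiringAction G L]

omit [IsUltrametricDist L] [IsAlgClosed L] [CharZero L] in
theorem smul_mem_orbit_iff' (g : G) (x α : L) :
    g • x ∈ MulAction.orbit G α ↔ x ∈ MulAction.orbit G α :=
  ⟨fun ⟨h, e⟩ => ⟨g⁻¹ * h, by simp only at e ⊢; rw [mul_smul, e, inv_smul_smul]⟩,
    fun ⟨h, e⟩ => ⟨g * h, by simp only at e ⊢; rw [mul_smul, e]⟩⟩

omit [IsUltrametricDist L] [IsAlgClosed L] [CharZero L] in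
theorem map_prod_orbit {α : L} (hfin : (MulAction.orbit G α).Finite) (g : G) :
    (∏ x ∈ hfin.toFinset, (X - C x)).map (MulSemiringAction.toRingHom G L g) =
      ∏ x ∈ hfin.toFinset, (X - C x) := by
  rw [Polynomial.map_prod]
  refine Finset.prod_equiv (MulAction.toPerm g) (fun x => ?_) fun x _ => by simp
  simp only [Set.Finite.mem_toFinset, MulAction.toPerm_apply, smul_mem_orbit_iff']

omit [IsUltrametricDist L] [IsAlgClosed L] [CharZero L] in
/-- The roots of a fixed polynomial have finite orbits. -/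
theorem finite_orbit_of_isRoot {Q : L[X]} (hQ : Q ≠ 0)
    (hfix : ∀ g : G, Q.map (MulSemiringAction.toRingHom G L g) = Q) {β : L} (hβ : Q.IsRoot β) :
    (MulAction.orbit G β).Finite ∧ (MulAction.orbit G β).ncard ≤ Q.natDegree := by
  classical
  have hsub : MulAction.orbit G β ⊆ ↑Q.roots.toFinset := fun y hy => by
    obtain ⟨g, rfl⟩ := hy
    rw [Finset.mem_coe, Multiset.mem_toFinset, mem_roots hQ]
    have h := hβ.map (f := MulSemiringAction.toRingHom G L g)
    rwa [hfix g] at h
  refine ⟨Q.roots.toFinset.finite_toSet.subset hsub, ?_⟩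
  refine (Set.ncard_le_ncard hsub Q.roots.toFinset.finite_toSet).trans ?_
  rw [Set.ncard_coe_finset]
  exact (Multiset.toFinset_card_le _).trans (card_roots' Q)

variable (hiso : ∀ (g : G) (x : L), ‖g • x‖ = ‖x‖)

omit [IsAlgClosed L] [CharZero L] in
include hiso in
theorem norm_smul_sub_le {α β : L} {r : ℝ} (hα : ∀ g : G, ‖g • α - α‖ ≤ r) {t : ℝ} (hrt : r ≤ t)
    (hβ : ‖β - α‖ ≤ t) (g : G) : ‖g • β - β‖ ≤ t := by
  rw [show g • β - β = g • (β - α) + ((g • α - α) - (β - α)) by rw [smul_sub]; ring]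
  refine (IsUltrametricDist.norm_add_le_max _ _).trans (max_le ?_ ?_)
  · rwa [hiso]
  · exact (norm_sub_le_max _ _).trans (max_le ((hα g).trans hrt) hβ)

include hiso in
/-- One step: an element with a smaller orbit nearby. -/
theorem exists_smaller_orbit {α : L} (hfin : (MulAction.orbit G α).Finite) {r : ℝ} (hr : 0 < r)
    (hα : ∀ g : G, ‖g • α - α‖ ≤ r) {q : ℕ} (hq : q < (MulAction.orbit G α).ncard) {c : ℝ}
    (hc : 1 ≤ c) (hcq : 1 ≤ c ^ ((MulAction.orbit G α).ncard - q) *
      ‖(Nat.choose (MulAction.orbit G α).ncard q : L)‖) :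
    ∃ β : L, (MulAction.orbit G β).Finite ∧
      (MulAction.orbit G β).ncard ≤ (MulAction.orbit G α).ncard - q ∧
      ‖β - α‖ ≤ c * r ∧ ∀ g : G, ‖g • β - β‖ ≤ c * r := by
  classical
  set n := (MulAction.orbit G α).ncard with hn
  have hcard : hfin.toFinset.card = n := (Set.ncard_eq_toFinset_card _ hfin).symm
  obtain ⟨β, hroot, hβ⟩ := exists_root_hasseDeriv_near hfin.toFinset α hr (fun x hx => by
    obtain ⟨g, rfl⟩ := hfin.mem_toFinset.1 hx
    exact hα g) (q := q) (by rwa [hcard])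
  rw [hcard] at hβ
  have hchoose : (0 : ℝ) < ‖(Nat.choose n q : L)‖ :=
    norm_pos_iff.2 (by exact_mod_cast (Nat.choose_pos hq.le).ne')
  have hβ' : ‖β - α‖ ≤ c * r := by
    refine le_of_pow_le_pow_left₀ (n := n - q) (by omega) (by positivity) ?_
    refine le_of_mul_le_mul_right (hβ.trans ?_) hchoose
    calc r ^ (n - q) = r ^ (n - q) * 1 := (mul_one _).symm
      _ ≤ r ^ (n - q) * (c ^ (n - q) * ‖(Nat.choose n q : L)‖) :=
        mul_le_mul_of_nonneg_left hcq (pow_nonneg hr.le _)
      _ = (c * r) ^ (n - q) * ‖(Nat.choose n q : L)‖ := by rw [mul_pow]; ring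
  set P := ∏ x ∈ hfin.toFinset, (X - C x) with hP
  have hPd : P.natDegree = n := by
    rw [hP, natDegree_prod_of_monic _ _ fun x _ => monic_X_sub_C x, ← hcard]
    simp
  have hPm : P.Monic := monic_prod_of_monic _ _ fun x _ => monic_X_sub_C x
  have hne : hasseDeriv q P ≠ 0 := fun h => by
    have h1 := congrArg (fun Q => Q.coeff (n - q)) h
    simp only [hasseDeriv_coeff, coeff_zero, Nat.sub_add_cancel hq.le] at h1
    rw [← hPd, hPm.coeff_natDegree, mul_one, hPd] at h1
    exact (Nat.choose_pos hq.le).ne' (by exact_mod_cast h1)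
  obtain ⟨hfinβ, hle⟩ := finite_orbit_of_isRoot (G := G) hne (fun g => by
    ext i
    rw [coeff_map, hasseDeriv_coeff, map_mul, map_natCast]
    congr 1
    conv_rhs => rw [hP, ← map_prod_orbit hfin g]
    rw [coeff_map]) hroot
  refine ⟨β, hfinβ, hle.trans ((natDegree_hasseDeriv_le P q).trans_eq (by rw [hPd])), hβ', ?_⟩
  exact norm_smul_sub_le hiso hα (le_mul_of_one_le_left hr.le hc) hβ'

omit [IsUltrametricDist L] [IsAlgClosed L] [CharZero L] in
theorem fixed_of_ncard_le_one {α : L} (hfin : (MulAction.orbit G α).Finite)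
    (h : (MulAction.orbit G α).ncard ≤ 1) (g : G) : g • α = α :=
  (Set.ncard_le_one_iff hfin).1 h (MulAction.mem_orbit α g) (MulAction.mem_orbit_self α)

include hiso in
/-- **Ax's lemma**, residue characteristic `p`. -/
theorem ax_lemma {p : ℕ} (hp : p.Prime) (hpL : ‖(p : L)‖ < 1) {α : L}
    (hfin : (MulAction.orbit G α).Finite) {r : ℝ} (hα : ∀ g : G, ‖g • α - α‖ ≤ r) :
    ∃ a : L, (∀ g : G, g • a = a) ∧
      ‖α - a‖ ≤ ‖(p : L)‖⁻¹ ^ axExponent p (MulAction.orbit G α).ncard * r := by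
  induction hn : (MulAction.orbit G α).ncard using Nat.strong_induction_on generalizing α r with
  | _ n ih => ?_
  set b := ‖(p : L)‖⁻¹ with hb
  have hppos : (0 : ℝ) < ‖(p : L)‖ := norm_pos_iff.2 (by exact_mod_cast hp.ne_zero)
  have hb1 : 1 ≤ b := one_le_inv_iff₀.2 ⟨hppos, hpL.le⟩
  have hb0 : 0 < b := by positivity
  have hr0 : 0 ≤ r := by simpa using hα 1
  rcases le_or_gt n 1 with h1 | h1
  · exact ⟨α, fixed_of_ncard_le_one hfin (hn ▸ h1), by rw [sub_self, norm_zero]; positivity⟩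
  have hr : 0 < r := by
    refine hr0.lt_of_ne fun h0 => ?_
    have hsub : MulAction.orbit G α ⊆ {α} := fun y hy => by
      obtain ⟨g, rfl⟩ := hy
      simpa [← h0, sub_eq_zero] using hα g
    have := Set.ncard_le_ncard hsub (Set.finite_singleton α)
    rw [Set.ncard_singleton] at this
    omega
  -- the general step
  have key : ∀ (q : ℕ), 0 < q → q < n → ∀ e : ℝ, 0 ≤ e →
      1 ≤ (b ^ e) ^ (n - q) * ‖(Nat.choose n q : L)‖ →
      e + axExponent p (n - q) ≤ axExponent p n →
      ∃ a : L, (∀ g : G, g • a = a) ∧ ‖α - a‖ ≤ b ^ axExponent p n * r := by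
    intro q hq0 hq e he hcq hle
    have hc : 1 ≤ b ^ e := Real.one_le_rpow hb1 he
    subst hn
    obtain ⟨β, hfinβ, hcard, hβα, hβ⟩ := exists_smaller_orbit hiso hfin hr hα hq hc hcq
    obtain ⟨a, ha, hβa⟩ := ih _ (by omega) hfinβ hβ rfl
    refine ⟨a, ha, ?_⟩
    have h2 : b ^ e * r ≤ b ^ axExponent p (MulAction.orbit G α).ncard * r := by
      refine mul_le_mul_of_nonneg_right (Real.rpow_le_rpow_of_exponent_le hb1 ?_) hr.le
      have := axExponent_nonneg hp ((MulAction.orbit G α).ncard - q)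
      linarith
    rw [show α - a = (β - a) - (β - α) by ring]
    refine (norm_sub_le_max _ _).trans (max_le (hβa.trans ?_) (hβα.trans h2))
    rw [← mul_assoc, ← Real.rpow_add hb0]
    refine mul_le_mul_of_nonneg_right (Real.rpow_le_rpow_of_exponent_le hb1 ?_) hr.le
    have := axExponent_mono hp hcard
    linarith
  obtain ⟨k, d, hd, hkd⟩ := Nat.exists_eq_pow_mul_and_not_dvd (show n ≠ 0 by omega) p hp.ne_one
  rcases Nat.lt_or_ge 1 d with hd1 | hd1
  · refine key (p ^ k) (pow_pos hp.pos k) ?_ 0 le_rfl ?_ ?_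
    · rw [hkd]
      exact lt_mul_of_one_lt_right (pow_pos hp.pos k) hd1
    · rw [Real.rpow_zero, one_pow, one_mul, hkd,
        norm_natCast_eq_one_of_not_dvd hp hpL (not_dvd_choose_mul_pow hp hd k)]
    · rw [zero_add]
      exact axExponent_mono hp (Nat.sub_le _ _)
  · have hd1' : d = 1 := by
      rcases Nat.eq_zero_or_pos d with rfl | h
      · exact absurd (dvd_zero p) hd
      · omega
    rw [hd1', mul_one] at hkd
    obtain ⟨j, rfl⟩ : ∃ j, k = j + 1 := ⟨k - 1, by
      rcases Nat.eq_zero_or_pos k with rfl | h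
      · rw [pow_zero] at hkd; omega
      · omega⟩
    have h2 : (2 : ℝ) ≤ p := by exact_mod_cast hp.two_le
    have hlt : p ^ j < p ^ (j + 1) := Nat.pow_lt_pow_right hp.one_lt j.lt_succ_self
    refine key (p ^ j) (pow_pos hp.pos j) (hkd ▸ hlt) (1 / ((p : ℝ) ^ j * ((p : ℝ) - 1)))
      (by have : (0 : ℝ) < (p : ℝ) - 1 := by linarith
          positivity) ?_ ?_
    · obtain ⟨u, hu, hu'⟩ := choose_prime_pow_succ hp j
      rw [hkd, hu, Nat.cast_mul, norm_mul, norm_natCast_eq_one_of_not_dvd hp hpL hu', mul_one,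
        ← Real.rpow_natCast, ← Real.rpow_mul hb0.le, Nat.cast_sub hlt.le]
      push_cast
      rw [show 1 / ((p : ℝ) ^ j * ((p : ℝ) - 1)) * ((p : ℝ) ^ (j + 1) - (p : ℝ) ^ j) = 1 by
          have : (p : ℝ) - 1 ≠ 0 := by linarith
          have : (p : ℝ) ^ j ≠ 0 := by positivity
          field_simp
          ring,
        Real.rpow_one, hb, inv_mul_cancel₀ hppos.ne']
    · rw [hkd, axExponent, axExponent, Nat.log_pow hp.one_lt, Finset.sum_range_succ, add_comm]
      refine add_le_add ?_ le_rfl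
      refine Finset.sum_le_sum_of_subset_of_nonneg (Finset.range_mono ?_) fun i _ _ => ?_
      · refine Nat.lt_succ_iff.1 (Nat.log_lt_of_lt_pow ?_ ?_)
        · omega
        · exact Nat.sub_lt (pow_pos hp.pos _) (pow_pos hp.pos _)
      · have : (0 : ℝ) < (p : ℝ) - 1 := by linarith
        positivity

omit [IsAlgClosed L] in
/-- **Ax's lemma** in residue characteristic zero. -/
theorem ax_lemma_zero (hunit : ∀ m : ℕ, m ≠ 0 → ‖(m : L)‖ = 1) {α : L}
    (hfin : (MulAction.orbit G α).Finite) {r : ℝ} (hα : ∀ g : G, ‖g • α - α‖ ≤ r) :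
    ∃ a : L, (∀ g : G, g • a = a) ∧ ‖α - a‖ ≤ r := by
  classical
  have hr0 : 0 ≤ r := by simpa using hα 1
  set s := hfin.toFinset with hs
  have hn : (s.card : ℕ) ≠ 0 :=
    (Finset.card_pos.2 ⟨α, hfin.mem_toFinset.2 (MulAction.mem_orbit_self α)⟩).ne'
  refine ⟨(∑ x ∈ s, x) / (s.card : L), fun g => ?_, ?_⟩
  · rw [← MulSemiringAction.toRingHom_apply, map_div₀, map_natCast, map_sum]
    congr 1
    refine Finset.sum_equiv (MulAction.toPerm g) (fun x => ?_) fun x _ => by simp
    simp only [hs, Set.Finite.mem_toFinset, MulAction.toPerm_apply, smul_mem_orbit_iff']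
  · have hne : (s.card : L) ≠ 0 := Nat.cast_ne_zero.2 hn
    rw [show α - (∑ x ∈ s, x) / (s.card : L) = (∑ x ∈ s, (α - x)) / (s.card : L) by
      rw [Finset.sum_sub_distrib, Finset.sum_const, nsmul_eq_mul]
      field_simp, norm_div, hunit _ hn, div_one]
    refine IsUltrametricDist.norm_sum_le_of_forall_le_of_nonneg hr0 fun x hx => ?_
    obtain ⟨g, rfl⟩ := hfin.mem_toFinset.1 hx
    rw [norm_sub_rev]
    exact hα g

variable (L) in
/-- A constant for Ax's lemma. -/
theorem exists_ax_const :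
    ∃ c : ℝ, 1 ≤ c ∧ ∀ {H : Type*} [Group H] [MulSemiringAction H L],
      (∀ (g : H) (x : L), ‖g • x‖ = ‖x‖) → ∀ (α : L), (MulAction.orbit H α).Finite →
      ∀ r : ℝ, (∀ g : H, ‖g • α - α‖ ≤ r) →
        ∃ a : L, (∀ g : H, g • a = a) ∧ ‖α - a‖ ≤ c * r := by
  by_cases hex : ∃ p : ℕ, p.Prime ∧ ‖(p : L)‖ < 1
  · obtain ⟨p, hp, hpL⟩ := hex
    have hppos : (0 : ℝ) < ‖(p : L)‖ := norm_pos_iff.2 (by exact_mod_cast hp.ne_zero)
    have hb1 : 1 ≤ ‖(p : L)‖⁻¹ := one_le_inv_iff₀.2 ⟨hppos, hpL.le⟩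
    refine ⟨‖(p : L)‖⁻¹ ^ ((p : ℝ) / ((p : ℝ) - 1) ^ 2), Real.one_le_rpow hb1 (by positivity), ?_⟩
    intro H _ _ hiso α hfin r hα
    obtain ⟨a, ha, hle⟩ := ax_lemma hiso hp hpL hfin hα
    refine ⟨a, ha, hle.trans (mul_le_mul_of_nonneg_right
      (Real.rpow_le_rpow_of_exponent_le hb1 (axExponent_le hp _)) ?_)⟩
    simpa using hα 1
  · push Not at hex
    refine ⟨1, le_rfl, fun {H} _ _ hiso α hfin r hα => ?_⟩
    rw [one_mul]
    refine ax_lemma_zero (fun m hm => ?_) hfin hα
    induction m using Nat.recOnMul with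
    | zero => exact absurd rfl hm
    | one => rw [Nat.cast_one, norm_one]
    | prime p hp => exact le_antisymm (IsUltrametricDist.norm_natCast_le_one L p) (hex p hp)
    | mul a b ha hb =>
      rw [Nat.cast_mul, norm_mul, ha (left_ne_zero_of_mul hm), hb (right_ne_zero_of_mul hm),
        one_mul]

end Norm

end Fermat.Agent.AxSenTate
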