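import Fermat.Agent.AxSenTate.Main
import Mathlib.NumberTheory.Padics.Complex

/-!
# The theorem of Ax, Sen and Tate over a complete field, and for the `p`-adic complex numbers
-/

set_option autoImplicit false

noncomputable section

open UniformSpace

namespace Fermat.Agent.AxSenTate

variable {K L : Type*} [NontriviallyNormedField K] [IsUltrametricDist K] [CompleteSpace K]
  [NormedField L] [NormedAlgebra K L] [Algebra.IsAlgebraic K L]

/-- Over a complete field the automorphisms are isometries. -/
theorem norm_algEquiv_apply (σ : L ≃ₐ[K] L) (x : L) : ‖σ x‖ = ‖x‖ := by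
  rw [NormedAlgebra.norm_eq_spectralNorm K, NormedAlgebra.norm_eq_spectralNorm K,
    ← spectralNorm_eq_of_equiv σ x]

variable [IsUltrametricDist L] [IsAlgClosed L] [CharZero L]

/-- Only the elements of a complete base field are fixed by all automorphisms. -/
theorem fixed_completion_top_iff (x : Completion L) :
    (∀ σ : L ≃ₐ[K] L, Completion.map σ x = x) ↔
      x ∈ Set.range fun a : K => (algebraMap K L a : Completion L) := by
  have : CharZero K := (RingHom.charZero_iff (algebraMap K L).injective).2 inferInstance
  have : Normal K L := normal_iff.2 fun y =>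
    ⟨Algebra.IsIntegral.isIntegral y, IsAlgClosed.splits _⟩
  have : IsGalois K L := ⟨⟩
  have h := fixed_completion_subgroup_iff (K := K) norm_algEquiv_apply ⊤ x
  simp only [Subgroup.mem_top, forall_const] at h
  rw [h, InfiniteGalois.fixedField_bot, IntermediateField.coe_bot, ← Set.range_comp]
  refine iff_of_eq (congrArg (x ∈ ·) (IsClosed.closure_eq ?_))
  exact (Completion.coe_isometry.comp (algebraMap_isometry K L)).isClosedEmbedding.isClosed_range

/-- The fixed elements among the `p`-adic complex numbers are the `p`-adic numbers. -/
theorem fixed_padicComplex_iff (p : ℕ) [Fact p.Prime] (x : ℂ_[p]) :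
    (∀ σ : PadicAlgCl p ≃ₐ[ℚ_[p]] PadicAlgCl p, Completion.map σ x = x) ↔
      x ∈ Set.range (algebraMap ℚ_[p] ℂ_[p]) :=
  fixed_completion_top_iff x

end Fermat.Agent.AxSenTate
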