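import Fermat.Agent.AxSenTate.AxLemma
import Mathlib.Analysis.Normed.Module.Completion
import Mathlib.Analysis.Normed.Unbundled.SpectralNorm
import Mathlib.FieldTheory.Galois.Infinite
import Mathlib.Topology.MetricSpace.Completion

/-!
# The theorem of Ax, Sen and Tate

An element of the completion which is fixed by a group of isometries with finite orbits is a
limit of fixed elements.
-/

set_option autoImplicit false

noncomputable section

open UniformSpace

namespace Fermat.Agent.AxSenTate

variable {L : Type*} [NormedField L] [IsUltrametricDist L] [IsAlgClosed L] [CharZero L]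

/-- The fixed points of a group of isometries with finite orbits in the completion. -/
theorem fixed_completion_iff {G : Type*} [Group G] [MulSemiringAction G L]
    (hiso : ∀ (g : G) (x : L), ‖g • x‖ = ‖x‖) (horb : ∀ α : L, (MulAction.orbit G α).Finite)
    (x : Completion L) :
    (∀ g : G, Completion.map (g • ·) x = x) ↔
      x ∈ closure ((↑) '' {a : L | ∀ g : G, g • a = a}) := by
  have hI : ∀ g : G, Isometry (fun y : L => g • y) := fun g => Isometry.of_dist_eq fun a b => by
    rw [dist_eq_norm, dist_eq_norm, ← smul_sub, hiso]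
  refine ⟨fun hx => Metric.mem_closure_iff.2 fun ε hε => ?_, fun hx g => ?_⟩
  · obtain ⟨c, hc1, hc⟩ := exists_ax_const L
    have hη : 0 < ε / (4 * c) := by positivity
    obtain ⟨y, hy⟩ := (Completion.denseRange_coe (α := L)).exists_dist_lt x hη
    have hy' : ∀ g : G, ‖g • y - y‖ ≤ ε / (4 * c) + ε / (4 * c) := fun g => by
      rw [← dist_eq_norm, ← Completion.dist_eq, ← Completion.map_coe (hI g).uniformContinuous]
      refine le_trans (dist_triangle _ x _) (add_le_add ?_ hy.le)
      conv_lhs => rw [← hx g]
      rw [(hI g).completion_map.dist_eq, dist_comm]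
      exact hy.le
    obtain ⟨a, ha, hya⟩ := hc hiso y (horb y) _ hy'
    refine ⟨a, Set.mem_image_of_mem _ ha, ?_⟩
    have h1 : dist (y : Completion L) a ≤ ε / 2 := by
      rw [Completion.dist_eq, dist_eq_norm]
      refine hya.trans (le_of_eq ?_)
      field_simp
      norm_num
    have h2 : ε / (4 * c) ≤ ε / 4 := by
      gcongr
      linarith
    linarith [dist_triangle x (y : Completion L) a]
  · refine closure_minimal ?_ (isClosed_eq (hI g).completion_map.continuous continuous_id) hx
    rintro _ ⟨a, ha, rfl⟩
    exact (Completion.map_coe (hI g).uniformContinuous a).trans (congrArg _ (ha g))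

/-- Orbits of algebraic automorphisms are finite. -/
theorem finite_orbit_algEquiv {K Ω : Type*} [Field K] [Field Ω] [Algebra K Ω]
    [Algebra.IsAlgebraic K Ω] (H : Subgroup (Ω ≃ₐ[K] Ω)) (α : Ω) :
    (MulAction.orbit H α).Finite := by
  refine (Polynomial.rootSet_finite (minpoly K α) Ω).subset ?_
  rintro _ ⟨g, rfl⟩
  rw [Polynomial.mem_rootSet]
  refine ⟨minpoly.ne_zero (Algebra.IsIntegral.isIntegral α), ?_⟩
  change Polynomial.aeval ((g : Ω ≃ₐ[K] Ω) α) (minpoly K α) = 0
  rw [Polynomial.aeval_algEquiv, AlgHom.comp_apply, minpoly.aeval, map_zero]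

variable {K : Type*} [Field K] [Algebra K L] [Algebra.IsAlgebraic K L]

/-- The fixed points of a subgroup of automorphisms in the completion. -/
theorem fixed_completion_subgroup_iff (hiso : ∀ (σ : L ≃ₐ[K] L) (x : L), ‖σ x‖ = ‖x‖)
    (H : Subgroup (L ≃ₐ[K] L)) (x : Completion L) :
    (∀ σ ∈ H, Completion.map σ x = x) ↔
      x ∈ closure ((↑) '' (IntermediateField.fixedField H : Set L)) := by
  refine Iff.trans ?_ ((fixed_completion_iff (G := H) (fun g y => hiso _ y)
    (finite_orbit_algEquiv H) x).trans ?_)
  · exact ⟨fun h g => h _ g.2, fun h σ hσ => h ⟨σ, hσ⟩⟩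
  · rfl

end Fermat.Agent.AxSenTate
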